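/-
PROJECT I (S37), slice I-1b-tame/(T0): THE TAME KUMMER COVERS `j = μ^m` (helper7).

`kummer m : Cover := ⟨X ^ m, 1⟩` (`m = 3` for the branch value `j = 0`, `m = 2` for the branch
value `1728` in the shifted coordinate `j - 1728`).  For every field `K`:

* `Good K` (instance, `m ≠ 0`); `kummer_PK`, `kummer_QK`, coefficient and degree lemmas;
* for a primitive `m`-th root of unity `ζ : K`: the cover is Galois with group
  `{μ ↦ ζ^i μ}` (`isCover`, `isGalois_kummer`, `finrank_kummer`, `card_gal_kummer`,
  `kummerIdx : (kummer m).Gal K ≃ Fin m`, `kummer_apply_mu`, `kummerIdx_mul`);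
* the group preserves `BRing (kummer m) V` for every valuation subring `V`
  (`isInvariantSubring_kummer`), and `covMap` maps the disc ring of the `j`-line into `BRing`
  (`kummer_covMap_mem_BRing`).
-/
import Mathlib
import Fermat.Agent.S18.C.CoverInst
import Fermat.Agent.S18.C.MoebiusGalois

set_option autoImplicit false
set_option linter.unusedSectionVars false

noncomputable section

namespace Fermat.Agent.S37.Tame.KummerCover

open Polynomial IntermediateField
open Fermat.Agent.S18.C.Defs Fermat.Agent.S18.C.SurfaceDefs Fermat.Agent.S18.C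
open Fermat.Agent.S18.C.CoverInst

/-- the Kummer cover `j = μ ^ m` -/
def kummer (m : ℕ) : Cover := ⟨X ^ m, 1⟩

section Basic

variable (m : ℕ) (K : Type*) [Field K]

theorem kummer_PK : (kummer m).PK K = X ^ m := by
  unfold Cover.PK kummer
  rw [Polynomial.map_pow, Polynomial.map_X]

theorem kummer_QK : (kummer m).QK K = 1 := by
  unfold Cover.QK kummer
  rw [Polynomial.map_one]

theorem kummer_QK_coeff_zero : ((kummer m).QK K).coeff 0 = 1 := by
  rw [kummer_QK, coeff_one_zero]

theorem kummer_PK_coeff_zero [NeZero m] : ((kummer m).PK K).coeff 0 = 0 := by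
  rw [kummer_PK, coeff_X_pow, if_neg (NeZero.ne m).symm]

theorem natDegree_kummer_PK : ((kummer m).PK K).natDegree = m := by
  rw [kummer_PK, natDegree_X_pow]

theorem natDegree_kummer_QK : ((kummer m).QK K).natDegree = 0 := by
  rw [kummer_QK, natDegree_one]

theorem kummer_jOf : (kummer m).jOf K = RatFunc.X ^ m := by
  unfold Cover.jOf
  rw [kummer_PK, kummer_QK, map_one, div_one, map_pow, RatFunc.algebraMap_X]

/-- the Kummer cover is nonconstant over every field -/
instance kummer_good [NeZero m] : (kummer m).Good K := by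
  apply good_of_natDegree_lt
  · rw [kummer_QK]; exact one_ne_zero
  · rw [natDegree_kummer_QK, natDegree_kummer_PK]
    exact Nat.pos_of_ne_zero (NeZero.ne m)

variable {K} [NeZero m]

theorem kummer_algebraMap_X :
    algebraMap (RatFunc K) (MuLine (kummer m) K) RatFunc.X = MuLine.mu (kummer m) K ^ m := by
  rw [Cover.algebraMap_X]
  unfold MuLine.j MuLine.mu
  rw [kummer_jOf, map_pow]

end Basic

/-! ### the Galois group -/

section Galois

variable {m : ℕ} [NeZero m] {K : Type*} [Field K] {ζ : K}

/-- the conjugates `ζ^i μ` of `μ` -/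
def conj (m : ℕ) (ζ : K) (i : Fin m) : MuLine (kummer m) K :=
  algebraMap K (MuLine (kummer m) K) (ζ ^ (i : ℕ)) * MuLine.mu (kummer m) K

theorem mu_ne_zero : MuLine.mu (kummer m) K ≠ 0 := by
  intro h
  exact transcendental_mu (K := K) (kummer m) (h ▸ isAlgebraic_zero)

/-- the Kummer cover over a field containing a primitive `m`-th root of unity -/
theorem isCover (hζ : IsPrimitiveRoot ζ m) :
    MoebiusGalois.IsCover (K0 := K) (E := RatFunc K) (M := MuLine (kummer m) K)
      (MuLine.mu (kummer m) K) (RatFunc.X : RatFunc K) (X ^ m : K[X]) (1 : K[X]) (conj m ζ) where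
  transc := transcendental_mu (kummer m)
  top := adjoin_mu (kummer m)
  gen := RatFunc.adjoin_X
  deg_lt := by
    rw [natDegree_one, natDegree_X_pow]
    exact Nat.pos_of_ne_zero (NeZero.ne m)
  den_mu := by
    rw [map_one]; exact one_ne_zero
  eq_j := by
    rw [map_one, div_one, map_pow, aeval_X, kummer_algebraMap_X]
  inj := by
    intro i i' h
    unfold conj at h
    have h1 := mul_right_cancel₀ (mu_ne_zero (m := m) (K := K)) h
    have h2 : ζ ^ (i : ℕ) = ζ ^ (i' : ℕ) := (algebraMap K (MuLine (kummer m) K)).injective h1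
    exact Fin.ext (hζ.pow_inj i.2 i'.2 h2)
  eq_j' := by
    intro i
    unfold conj
    rw [map_one, div_one, map_pow, aeval_X, mul_pow, ← map_pow, ← pow_mul, mul_comm (i : ℕ) m,
      pow_mul, hζ.pow_eq_one, one_pow, map_one, one_mul, kummer_algebraMap_X]

theorem card_fin_eq : Fintype.card (Fin m) = (X ^ m : K[X]).natDegree := by
  rw [Fintype.card_fin, natDegree_X_pow]

theorem isGalois_kummer (hζ : IsPrimitiveRoot ζ m) :
    IsGalois (RatFunc K) (MuLine (kummer m) K) := (isCover hζ).isGalois card_fin_eq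

theorem finiteDimensional_kummer (hζ : IsPrimitiveRoot ζ m) :
    FiniteDimensional (RatFunc K) (MuLine (kummer m) K) := (isCover hζ).finiteDimensional

theorem finrank_kummer (hζ : IsPrimitiveRoot ζ m) :
    Module.finrank (RatFunc K) (MuLine (kummer m) K) = m := by
  rw [(isCover hζ).finrank_eq card_fin_eq, natDegree_X_pow]

theorem card_gal_kummer (hζ : IsPrimitiveRoot ζ m) : Nat.card ((kummer m).Gal K) = m := by
  rw [(isCover hζ).card_aut card_fin_eq, natDegree_X_pow]

/-- the identification of the group of the Kummer cover with `Fin m` -/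
def kummerIdx (hζ : IsPrimitiveRoot ζ m) : (kummer m).Gal K ≃ Fin m :=
  (isCover hζ).autEquiv card_fin_eq

/-- `g μ = ζ ^ (idx g) * μ` -/
theorem kummer_apply_mu (hζ : IsPrimitiveRoot ζ m) (g : (kummer m).Gal K) :
    g (MuLine.mu (kummer m) K) =
      algebraMap K (MuLine (kummer m) K) (ζ ^ (kummerIdx hζ g : ℕ)) * MuLine.mu (kummer m) K :=
  (isCover hζ).apply_mu card_fin_eq g

theorem kummerIdx_eq_iff (hζ : IsPrimitiveRoot ζ m) (g : (kummer m).Gal K) (i : Fin m) :
    kummerIdx hζ g = i ↔ g (MuLine.mu (kummer m) K) =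
      algebraMap K (MuLine (kummer m) K) (ζ ^ (i : ℕ)) * MuLine.mu (kummer m) K :=
  (isCover hζ).autEquiv_eq_iff card_fin_eq g i

theorem kummerIdx_one (hζ : IsPrimitiveRoot ζ m) :
    kummerIdx hζ (1 : (kummer m).Gal K) = ⟨0, Nat.pos_of_ne_zero (NeZero.ne m)⟩ := by
  rw [kummerIdx_eq_iff]
  simp

theorem kummerIdx_eq_zero_iff (hζ : IsPrimitiveRoot ζ m) (g : (kummer m).Gal K) :
    (kummerIdx hζ g : ℕ) = 0 ↔ g = 1 := by
  constructor
  · intro h
    apply (kummerIdx hζ).injective
    rw [kummerIdx_one]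
    exact Fin.ext h
  · rintro rfl
    rw [kummerIdx_one]

/-- constants are fixed by the group -/
theorem gal_algebraMap (g : (kummer m).Gal K) (a : K) :
    g (algebraMap K (MuLine (kummer m) K) a) = algebraMap K (MuLine (kummer m) K) a := by
  rw [IsScalarTower.algebraMap_apply K (RatFunc K) (MuLine (kummer m) K), g.commutes]

theorem mul_apply_mu (hζ : IsPrimitiveRoot ζ m) (g h : (kummer m).Gal K) :
    (g * h) (MuLine.mu (kummer m) K) =
      algebraMap K (MuLine (kummer m) K) (ζ ^ ((kummerIdx hζ g : ℕ) + (kummerIdx hζ h : ℕ))) *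
        MuLine.mu (kummer m) K := by
  rw [AlgEquiv.mul_apply, kummer_apply_mu hζ h, map_mul, gal_algebraMap, kummer_apply_mu hζ g,
    pow_add, map_mul]
  ring

/-- the group law: indices add modulo `m` -/
theorem kummerIdx_mul (hζ : IsPrimitiveRoot ζ m) (g h : (kummer m).Gal K) :
    (kummerIdx hζ (g * h) : ℕ) = ((kummerIdx hζ g : ℕ) + (kummerIdx hζ h : ℕ)) % m := by
  have hm : 0 < m := Nat.pos_of_ne_zero (NeZero.ne m)
  set s := (kummerIdx hζ g : ℕ) + (kummerIdx hζ h : ℕ) with hs
  have h1 : kummerIdx hζ (g * h) = ⟨s % m, Nat.mod_lt _ hm⟩ := by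
    rw [kummerIdx_eq_iff, mul_apply_mu hζ g h, ← hs]
    congr 2
    conv_lhs => rw [← Nat.div_add_mod s m, pow_add, pow_mul, hζ.pow_eq_one, one_pow, one_mul]
  rw [h1]

end Galois

/-! ### the group preserves the disc ring -/

section Invariant

variable {m : ℕ} [NeZero m] {K : Type*} [Field K] {ζ : K}

/-- every element of the group of the Kummer cover maps `B_V` into itself -/
theorem kummer_gal_mem_BRing (hζ : IsPrimitiveRoot ζ m) (V : ValuationSubring K)
    (g : (kummer m).Gal K) {x : MuLine (kummer m) K} (hx : x ∈ BRing (kummer m) V) :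
    g x ∈ BRing (kummer m) V := by
  set i := kummerIdx hζ g with hi
  have hvζ : V.valuation ζ = 1 :=
    DiscBasic.val_eq_one_of_pow_eq_one _ (NeZero.ne m) hζ.pow_eq_one
  have hζV : ζ ^ (i : ℕ) ∈ V := by
    rw [← V.valuation_le_one_iff, map_pow, hvζ, one_pow]
  refine gal_mem_BRing (kummer m) V g (T := C (ζ ^ (i : ℕ)) * X) (B := 1) ?_ ?_ ?_ ?_ ?_ hx
  · exact (polyV V).mul_mem (DiscSubst.C_mem_polyV V hζV) (DiscSubst.X_mem_polyV V)
  · exact (polyV V).one_mem
  · rw [mul_coeff_zero, coeff_X_zero, mul_zero, map_zero]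
    exact zero_lt_one
  · rw [coeff_one_zero, map_one]
  · rw [← polyToMu_apply, ← polyToMu_apply, map_one, mul_one, map_mul, polyToMu_C, polyToMu_X,
      kummer_apply_mu hζ g]

/-- `B_V` is stable under the group of the Kummer cover -/
theorem isInvariantSubring_kummer (hζ : IsPrimitiveRoot ζ m) (V : ValuationSubring K) :
    IsInvariantSubring ((kummer m).Gal K) (BRing (kummer m) V) :=
  ⟨fun g _ hx => kummer_gal_mem_BRing hζ V g hx⟩

/-- `covMap` maps the disc ring of the `j`-line into `B_V` for the Kummer cover -/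
theorem kummer_covMap_mem_BRing (V : ValuationSubring K) {f : RatFunc K} (hf : f ∈ discRing V) :
    algebraMap (RatFunc K) (MuLine (kummer m) K) f ∈ BRing (kummer m) V := by
  apply covMap_mem_BRing (kummer m) V _ _ hf
  · rw [kummer_PK_coeff_zero, map_zero]; exact zero_lt_one
  · rw [kummer_QK_coeff_zero, map_one]

end Invariant

end Fermat.Agent.S37.Tame.KummerCover
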