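/-
PROJECT I (S37), slice I-1b-tame: THE TAME CONTRACT K3, GENERIC SIDE, FOR THE KUMMER COVER
`j = μ^m` (helper7).

Mirror of `S18/C/GenericK3.hesse_k3` for `c = kummer m`, `H₀ = μ_m`, a single base point
`M₀ = {μ = 0}` (fixed by all of `H₀`), `i₀ g = 1`, `d₀ = m - 1`: for every `B_A`-basis `b` of
`C_A = CInt (kummer m) FL A` with unit discriminant and every `D : ℕ` with

  `m * D + ∑_{g ≠ 1} φk g = (m - 1) * φk 1`     (the special-fibre identity),

one has `D + #zeros(x, 0) = φk 1 = rank`, i.e. `#zeros(x, 0) = n - D`.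
-/
import Mathlib
import Fermat.Agent.S37.Tame.KummerCover
import Fermat.Agent.S18.C.GenericK3

set_option autoImplicit false
set_option linter.unusedSectionVars false

noncomputable section

namespace Fermat.Agent.S37.Tame.KummerK3

open Polynomial TensorProduct AlgebraicCurve MulAction
  Fermat.Agent.S18.C.Defs Fermat.Agent.S18.C.SurfaceDefs Fermat.Agent.S18.C.GenericCount
  Fermat.Agent.S18.C.GenericFibre Fermat.Agent.S18.C.GenericFibre2
  Fermat.Agent.S18.C.BRingLocal Fermat.Agent.S24.FF Fermat.Agent.S18.C.CoverInst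
  Fermat.Agent.S18.C.GenericK3 Fermat.Agent.S37.Tame.KummerCover

variable {m : ℕ} [NeZero m] {L : Type*} [Field L] (A : ValuationSubring L)

/-- `j ∈ B_A` for the Kummer cover -/
theorem kummer_hj : (RatFunc.X : RatFunc L) ∈ Bj (kummer m) A :=
  kummer_covMap_mem_BRing A (X_mem_discRing A)

theorem kummer_hQ : A.valuation (((kummer m).QK L).coeff 0) = 1 := by
  rw [kummer_QK_coeff_zero, map_one]

variable {ζ : L} (hζ : IsPrimitiveRoot ζ m)

/-- the Moebius relation `g μ * 1 = ζ^i μ` for the Kummer group -/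
theorem kummer_moebius (g : (kummer m).Gal L) :
    g (MuLine.mu (kummer m) L) * algebraMap L[X] (MuLine (kummer m) L) 1 =
      algebraMap L[X] (MuLine (kummer m) L) (C (ζ ^ (kummerIdx hζ g : ℕ)) * X) := by
  rw [map_one, mul_one, kummer_apply_mu hζ g]
  show _ = polyToMu (kummer m) (C (ζ ^ (kummerIdx hζ g : ℕ)) * X)
  rw [map_mul, polyToMu_C, polyToMu_X]

/-- the only zero of `P - 0 * Q = X^m` is `0` -/
theorem kummer_zero_iff (t : L) :
    (A.valuation t < 1 ∧ ((kummer m).PK L).eval t = 0 * ((kummer m).QK L).eval t) ↔ t = 0 := by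
  rw [kummer_PK, eval_pow, eval_X, zero_mul]
  constructor
  · rintro ⟨-, h⟩
    exact pow_eq_zero_iff (NeZero.ne m) |>.mp h
  · rintro rfl
    exact ⟨by rw [map_zero]; exact zero_lt_one, zero_pow (NeZero.ne m)⟩

variable [IsInvariantSubring ((kummer m).Gal L) (BRing (kummer m) A)]

theorem kummer_card_M0 : Nat.card (Mset (kummer m) A 0 (kummer_hj A)) = 1 := by
  rw [card_Mset (kummer m) A (kummer_hj A) (kummer_hQ A) 0]
  rw [Nat.card_congr (Equiv.subtypeEquivRight (kummer_zero_iff A))]
  exact Nat.card_unique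

include hζ in
theorem kummer_card_fix0 (g : (kummer m).Gal L) :
    Nat.card (fixedBy (Mset (kummer m) A 0 (kummer_hj A)) g) = 1 := by
  rw [card_fixedBy_Mset (kummer m) A (kummer_hj A) (kummer_hQ A) 0 g (kummer_moebius hζ g)
    (fun t _ => by rw [eval_one]; exact one_ne_zero)]
  have h : ∀ t : L, ((A.valuation t < 1 ∧
      ((kummer m).PK L).eval t = 0 * ((kummer m).QK L).eval t) ∧
      (C (ζ ^ (kummerIdx hζ g : ℕ)) * X : L[X]).eval t = t * (1 : L[X]).eval t) ↔ t = 0 := by
    intro t
    rw [kummer_zero_iff]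
    constructor
    · exact fun h => h.1
    · rintro rfl
      exact ⟨rfl, by simp⟩
  rw [Nat.card_congr (Equiv.subtypeEquivRight h)]
  exact Nat.card_unique

variable [CharZero L] [IsAlgClosed L]
variable (FL : Type*) [Field FL] [Algebra (RatFunc L) FL] [Algebra L FL]
  [IsScalarTower L (RatFunc L) FL] [FiniteDimensional (RatFunc L) FL]
  [IsAlgClosed (IsLocalRing.ResidueField A)]
  [Fintype ((kummer m).Gal L)] [DecidableEq ((kummer m).Gal L)]
  {ι : Type*} [Fintype ι] [DecidableEq ι]
  (b : Module.Basis ι (BRing (kummer m) A) (CInt (kummer m) FL A))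
  (hb : IsUnit (Algebra.discr (BRing (kummer m) A) b))
  (hx : IsFF L (xF L FL)) (hsep : Algebra.IsSeparable (IntermediateField.adjoin L {xF L FL}) FL)

include hζ hb in
/-- **Burnside for the single base point**: `#zeros(x, 0) * m = ∑_g φk g`. -/
theorem kummer_card_zeros_mul :
    (Fermat.Agent.S18.A.FibreSep.zeros hx hsep 0).card * m =
      ∑ g : (kummer m).Gal L,
        phik (C := CInt (kummer m) FL A) A (evClosedB (kummer m) A) g := by
  have := isGalois_kummer hζ
  have := finiteDimensional_kummer hζ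
  have : Finite (Mset (kummer m) A 0 (kummer_hj A)) :=
    Nat.finite_of_card_ne_zero (by rw [kummer_card_M0 A]; norm_num)
  have h := card_orbits_mul A b (smul_algebraMap (kummer m) FL A)
    (Mset (kummer m) A 0 (kummer_hj A)) (evClosedB (kummer m) A)
    (isGoodSet_Mset (kummer m) A b hb 0 _)
  rw [card_orbits_Mset (kummer m) A (kummer_hj A) (kummer_hQ A) FL hx hsep 0 (t₀ := 0)
      (by rw [map_zero]; exact zero_lt_one)
      (((kummer_zero_iff A 0).mpr rfl).2), card_gal_kummer hζ] at h
  rw [h]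
  refine Finset.sum_congr rfl fun g _ => ?_
  rw [kummer_card_fix0 A hζ g, one_mul]

include hζ hb in
/-- **Tame contract K3, generic side, Kummer cover**: from the special-fibre identity `hD`
for the different sum `D`: `D + #zeros(x, 0) = φk 1`. -/
theorem kummer_k3 (D : ℕ)
    (hD : m * D + ∑ g ∈ Finset.univ.erase (1 : (kummer m).Gal L),
        phik (C := CInt (kummer m) FL A) A (evClosedB (kummer m) A) g =
      (m - 1) * phik (C := CInt (kummer m) FL A) A (evClosedB (kummer m) A)
        (1 : (kummer m).Gal L)) :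
    D + (Fermat.Agent.S18.A.FibreSep.zeros hx hsep 0).card =
      phik (C := CInt (kummer m) FL A) A (evClosedB (kummer m) A) (1 : (kummer m).Gal L) := by
  have hm : 0 < m := Nat.pos_of_ne_zero (NeZero.ne m)
  have h1 := kummer_card_zeros_mul A hζ FL b hb hx hsep
  rw [← Finset.add_sum_erase _ _ (Finset.mem_univ (1 : (kummer m).Gal L))] at h1
  set φ1 := phik (C := CInt (kummer m) FL A) A (evClosedB (kummer m) A)
    (1 : (kummer m).Gal L) with hφ1
  set S := ∑ g ∈ Finset.univ.erase (1 : (kummer m).Gal L),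
    phik (C := CInt (kummer m) FL A) A (evClosedB (kummer m) A) g with hS
  set z := (Fermat.Agent.S18.A.FibreSep.zeros hx hsep 0).card with hz
  -- `z * m = φ1 + S`, `m * D + S = (m - 1) * φ1`  ⟹  `m * (D + z) = m * φ1`
  have h2 : m * (D + z) = m * φ1 := by
    have h3 : (m - 1) * φ1 + φ1 = m * φ1 := by
      obtain ⟨k, rfl⟩ : ∃ k, m = k + 1 := ⟨m - 1, by omega⟩
      rw [Nat.add_sub_cancel]
      ring
    calc m * (D + z) = m * D + z * m := by ring
      _ = m * D + (φ1 + S) := by rw [h1]
      _ = (m * D + S) + φ1 := by ring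
      _ = (m - 1) * φ1 + φ1 := by rw [hD]
      _ = m * φ1 := h3
  exact Nat.eq_of_mul_eq_mul_left hm h2

include hζ hb in
/-- `kummer_k3` with the rank `n = #ι` on the right -/
theorem kummer_k3_rank (D : ℕ)
    (hD : m * D + ∑ g ∈ Finset.univ.erase (1 : (kummer m).Gal L),
        phik (C := CInt (kummer m) FL A) A (evClosedB (kummer m) A) g =
      (m - 1) * Fintype.card ι) :
    D + (Fermat.Agent.S18.A.FibreSep.zeros hx hsep 0).card = Fintype.card ι := by
  rw [← phik_one_evClosedB (kummer m) A b hb] at hD ⊢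
  exact kummer_k3 A hζ FL b hb hx hsep D hD

end Fermat.Agent.S37.Tame.KummerK3
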