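/-
PROJECT I (S37), slice I-1b-tame/(T0): THE NUMBERS OF THE TAME KUMMER COVERS (helper7).

Special fibre: `k` a field containing a primitive `m`-th root of unity `ζ` (so `m ≠ 0` in `k`),
`D₀ = BRing (kummer m) ⊤ = k[μ]_(μ)`, `Dj = discRing ⊤ = k[j]_(j)`:

* `vTop_apply_sub`, `intValuation_smul_sub` : `ord_μ (g μ - μ) = 1` for `g ≠ 1` (`i₀ g = 1`);
* `d0_kummer` : the different exponent of `D₀ / Dj` at the closed point is `m - 1`.
-/
import Mathlib
import Fermat.Agent.S37.Tame.KummerCover
import Fermat.Agent.S18.C.CoverDifferent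
import Fermat.Agent.S18.C.BRingTop

set_option autoImplicit false
set_option linter.unusedSectionVars false

noncomputable section

namespace Fermat.Agent.S37.Tame.KummerNumbers

open Polynomial IsDedekindDomain WithZero
open Fermat.Agent.S18.C.Defs Fermat.Agent.S18.C.SurfaceDefs Fermat.Agent.S18.C
open Fermat.Agent.S18.C.BRingLocal Fermat.Agent.S18.C.BRingTop
open Fermat.Agent.S37.Tame.KummerCover

variable {m : ℕ} [NeZero m] {k : Type*} [Field k] {ζ : k}

theorem kummer_hQ0 : ((kummer m).QK k).coeff 0 ≠ 0 := by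
  rw [kummer_QK_coeff_zero]; exact one_ne_zero

/-- `g μ - μ = (ζ^i - 1) μ` -/
theorem apply_mu_sub (hζ : IsPrimitiveRoot ζ m) (g : (kummer m).Gal k) :
    g (MuLine.mu (kummer m) k) - MuLine.mu (kummer m) k =
      algebraMap k (MuLine (kummer m) k) (ζ ^ (kummerIdx hζ g : ℕ) - 1) *
        MuLine.mu (kummer m) k := by
  rw [kummer_apply_mu hζ g, map_sub, map_one, sub_mul, one_mul]

theorem pow_idx_sub_one_ne_zero (hζ : IsPrimitiveRoot ζ m) {g : (kummer m).Gal k} (hg : g ≠ 1) :
    ζ ^ (kummerIdx hζ g : ℕ) - 1 ≠ 0 := by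
  have h0 : (kummerIdx hζ g : ℕ) ≠ 0 := fun h => hg ((kummerIdx_eq_zero_iff hζ g).mp h)
  exact sub_ne_zero.mpr
    (hζ.pow_ne_one_of_pos_of_lt h0 (kummerIdx hζ g).2)

/-- **`i₀ g = 1`**: `ord_μ (g μ - μ) = 1` for every `g ≠ 1`, valuation form. -/
theorem vTop_apply_sub (hζ : IsPrimitiveRoot ζ m) {g : (kummer m).Gal k} (hg : g ≠ 1) :
    vTop (kummer m) k (g (MuLine.mu (kummer m) k) - MuLine.mu (kummer m) k) =
      vTop (kummer m) k (MuLine.mu (kummer m) k) ^ 1 := by
  rw [apply_mu_sub hζ g, map_mul, vTop_const (kummer m) k (pow_idx_sub_one_ne_zero hζ hg), one_mul,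
    pow_one]

/-- **`i₀ g = 1`**, `intValuation` form (the hypothesis `hm` of `CoverDifferent.d0_eq_sum`). -/
theorem intValuation_smul_sub (hζ : IsPrimitiveRoot ζ m)
    [IsInvariantSubring ((kummer m).Gal k) (BRing (kummer m) (⊤ : ValuationSubring k))]
    (P : HeightOneSpectrum (BRing (kummer m) (⊤ : ValuationSubring k)))
    {g : (kummer m).Gal k} (hg : g ≠ 1) :
    P.intValuation (g • muB (kummer m) (⊤ : ValuationSubring k) - muB (kummer m) ⊤) =
      exp (-((1 : ℕ) : ℤ)) := by
  rw [eq_pTop (kummer m) k P]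
  apply intValuation_eq_exp_of_vTop
  exact vTop_apply_sub hζ hg

open scoped Classical in
/-- **`d₀ = m - 1`**: the different exponent of the Kummer cover at `μ = 0` (tame). -/
theorem d0_kummer (hζ : IsPrimitiveRoot ζ m) [Fintype ((kummer m).Gal k)] :
    letI := CoverDifferent.covTopAlgebra (kummer m) k (kummer_PK_coeff_zero m k) kummer_hQ0
    haveI := CoverDifferent.isDiscreteValuationRing_Dj k
    haveI := CoverDifferent.isDiscreteValuationRing_D0 (kummer m) k
    haveI := CoverDifferent.faithfulSMul_covTop (kummer m) k (kummer_PK_coeff_zero m k) kummer_hQ0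
    ∀ P : HeightOneSpectrum (BRing (kummer m) (⊤ : ValuationSubring k)),
      Fermat.Agent.S18.A.Defs.diffExpAt (discRing (⊤ : ValuationSubring k)) P = m - 1 := by
  have := isInvariantSubring_kummer hζ (⊤ : ValuationSubring k)
  have := isGalois_kummer hζ
  intro P
  have h := CoverDifferent.d0_eq_sum_canonical (kummer m) k (kummer_PK_coeff_zero m k) kummer_hQ0
    P (fun _ => 1) (fun g hg => intValuation_smul_sub hζ P hg)
  rw [h, Finset.sum_const, smul_eq_mul, mul_one, Finset.card_erase_of_mem (Finset.mem_univ _),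
    Finset.card_univ, ← Nat.card_eq_fintype_card, card_gal_kummer hζ]

end Fermat.Agent.S37.Tame.KummerNumbers
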