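/-
PROJECT I (S37), slice I-1b-tame (helper16): the combinatorial core of the TAME fibre count.

For a tame Kummer cover (`j - c₀ = μ^e`, group `G = μ_e`, single base point `μ = 0`) the equality
`#fib_k(c̄₀) = #fib_L(c₀)` is pure orbit counting, no different exponents:

* L-side: `#fib_L * |G| = ∑_g φk g`   (`GenericCount.card_orbits_mul` with `M₀ = {0}`);
* K-side: `φk g = #Fix_{φ g}(X)`, `X = MaximalSpectrum Ck` (`SpecialPoints.phik_eq_card_stable`);
* `X → Z = {places of F_k over c̄₀}` is onto with fibres the orbits (`SpecialCount.below_*`).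

Then `#Z = #fib_L` (`tame_count`, `tame_count_equiv`).
-/
import Mathlib
import Fermat.Agent.S18.C.OrbitCount

set_option autoImplicit false
set_option linter.style.haveILetI false

namespace Fermat.Agent.S37.Tame.OrbitCombine

open MulAction Fermat.Agent.S18.C

variable {G X Z : Type*} [Group G] [MulAction G X]

/-- a surjection whose fibres are the orbits identifies the target with the orbit space -/
noncomputable def orbitQuotientEquiv (f : X → Z) (hf : Function.Surjective f)
    (hfib : ∀ x x', f x = f x' ↔ x' ∈ orbit G x) : Quotient (orbitRel G X) ≃ Z :=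
  Equiv.ofBijective
    (Quotient.lift f fun a b (h : a ∈ orbit G b) => ((hfib b a).mpr h).symm)
    ⟨by
      intro p q
      refine Quotient.inductionOn₂ p q fun a b h => ?_
      exact Quotient.sound (show a ∈ orbit G b from (hfib b a).mp (Eq.symm h)),
    fun z => by
      obtain ⟨x, rfl⟩ := hf z
      exact ⟨Quotient.mk _ x, rfl⟩⟩

theorem card_eq_card_orbits (f : X → Z) (hf : Function.Surjective f)
    (hfib : ∀ x x', f x = f x' ↔ x' ∈ orbit G x) :
    Nat.card Z = Nat.card (Quotient (orbitRel G X)) :=
  (Nat.card_congr (orbitQuotientEquiv f hf hfib)).symm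

/-- **The tame count.**  `X → Z` onto with fibres the `G`-orbits, `#Fix_g(X) = φ g`,
`n * |G| = ∑_g φ g`  ⟹  `#Z = n`. -/
theorem tame_count [Fintype G] [Finite X] (f : X → Z) (hf : Function.Surjective f)
    (hfib : ∀ x x', f x = f x' ↔ x' ∈ orbit G x) (φ : G → ℕ)
    (hX : ∀ g, φ g = Nat.card {x : X // g • x = x}) (n : ℕ)
    (hn : n * Nat.card G = ∑ g : G, φ g) : Nat.card Z = n := by
  rw [card_eq_card_orbits f hf hfib]
  have hb := OrbitCount.burnside (G := G) (X := X)
  have h1 : ∑ g : G, Nat.card (fixedBy X g) = ∑ g : G, φ g :=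
    Finset.sum_congr rfl fun g _ => (hX g).symm
  rw [h1, ← hn] at hb
  exact Nat.eq_of_mul_eq_mul_right Nat.card_pos hb

omit [MulAction G X] in
/-- The same with the group acting through an isomorphism `φ : G ≃* H` (`G = Gal` of the cover over
`L`, `H = Gal` over the residue field, `φ` the reduction isomorphism). -/
theorem tame_count_equiv {H : Type*} [Group H] [MulAction H X] [Fintype G] [Finite X]
    (e : G ≃* H) (f : X → Z) (hf : Function.Surjective f)
    (hfib : ∀ x x', f x = f x' ↔ x' ∈ orbit H x) (φ : G → ℕ)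
    (hX : ∀ g, φ g = Nat.card {x : X // e g • x = x}) (n : ℕ)
    (hn : n * Nat.card G = ∑ g : G, φ g) : Nat.card Z = n := by
  letI : Fintype H := Fintype.ofEquiv G e.toEquiv
  refine tame_count (G := H) f hf hfib (fun h => φ (e.symm h)) (fun h => ?_) n ?_
  · rw [hX, MulEquiv.apply_symm_apply]
  · rw [← Nat.card_congr e.toEquiv, hn]
    exact Fintype.sum_equiv e.toEquiv _ _ fun g => by simp

/-- Inequality form: if only `n * |G| ≤ ∑_g φ g` is known. -/
theorem le_tame_count [Fintype G] [Finite X] (f : X → Z) (hf : Function.Surjective f)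
    (hfib : ∀ x x', f x = f x' ↔ x' ∈ orbit G x) (φ : G → ℕ)
    (hX : ∀ g, φ g = Nat.card {x : X // g • x = x}) (n : ℕ)
    (hn : n * Nat.card G ≤ ∑ g : G, φ g) : n ≤ Nat.card Z := by
  rw [card_eq_card_orbits f hf hfib]
  have hb := OrbitCount.burnside (G := G) (X := X)
  have h1 : ∑ g : G, Nat.card (fixedBy X g) = ∑ g : G, φ g :=
    Finset.sum_congr rfl fun g _ => (hX g).symm
  rw [h1] at hb
  rw [← hb] at hn
  exact Nat.le_of_mul_le_mul_right hn Nat.card_pos

end Fermat.Agent.S37.Tame.OrbitCombine
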