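import Mathlib
import Fermat.Agent.S18.C.OrbitCount
import Fermat.Agent.S18.C.SpecialCount

/-!
# PROJECT I (S37), slice I-1b-tame (T4): counting without differents (abstract)

For a tame cover (`#G` prime to the residue characteristic, one base point fixed by all of `G`)
the number of places of the generic fibre over the base point equals the number of places of the
special fibre, by Burnside on both sides; no different is needed.

* `card_orbits_maxSpec_mul` : Burnside on the maximal spectrum of the special fibre `S`,
  `#(maxSpec S / H) * #H = ∑ γ, #{x | γ x ⊆ x}` (the counts of `SpecialPointsKModel.kside`);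
* `belowE`, `belowE_surjective`, `belowE_eq_iff`, `orbitEquiv`, `card_orbits_maxSpec_eq` :
  for `E` a Dedekind domain, not a field, with `Algebra.IsInvariant E S H` (`E = S^H`):
  `maxSpec S / H ≃ HeightOneSpectrum E` (light version of `SpecialCount.below`, no `Dj`, `D₀`);
* `card_heightOneSpectrum_mul`; `finite_maximalSpectrum`;
* `eq_of_orbit_counts`; **`eq_card_heightOneSpectrum`** : from `zL * #G = ∑ g, φk g`
  (`KummerK3.kummer_card_zeros_mul`) and `φk g = #{x ∈ maxSpec S | φ g x ⊆ x}`:
  `zL = #HeightOneSpectrum E`.
-/

set_option autoImplicit false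
set_option linter.unusedSectionVars false
set_option linter.style.haveILetI false

namespace Fermat.Agent.S37.Tame.OrbitCount

open MulAction Module IsDedekindDomain
open Fermat.Agent.S18.C
open scoped Pointwise

attribute [local instance] SpecialCount.maxSpecAction

/-! ### (b) Burnside on the maximal spectrum -/

section Burnside

variable {H S : Type*} [Group H] [Fintype H] [CommRing S] [MulSemiringAction H S]

/-- **Burnside on the special fibre**:
`#(maxSpec S / H) * #H = ∑ γ, #{x ∈ maxSpec S | γ x ⊆ x}`. -/
theorem card_orbits_maxSpec_mul [Finite (MaximalSpectrum S)] :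
    Nat.card (Quotient (orbitRel H (MaximalSpectrum S))) * Nat.card H =
      ∑ γ : H, Nat.card {x : MaximalSpectrum S // ∀ s ∈ x.asIdeal, γ • s ∈ x.asIdeal} := by
  rw [OrbitCount.burnside]
  refine Finset.sum_congr rfl fun γ _ => ?_
  exact Nat.card_congr (Equiv.subtypeEquivRight fun x => SpecialCount.smul_eq_iff γ x)

end Burnside

/-! ### (c) orbits on the maximal spectrum = primes of the ring of invariants -/

section Below

variable {E S H : Type*} [CommRing E] [IsDedekindDomain E] [CommRing S] [Algebra E S]
  [FaithfulSMul E S] [Group H] [Finite H] [MulSemiringAction H S] [SMulCommClass H E S]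
  [Algebra.IsInvariant E S H]

/-- the prime of `E = S^H` below a maximal ideal of `S` -/
noncomputable def belowE (hE : ¬ IsField E) (x : MaximalSpectrum S) : HeightOneSpectrum E where
  asIdeal := x.asIdeal.comap (algebraMap E S)
  isPrime := Ideal.comap_isPrime _ _
  ne_bot := by
    haveI : Algebra.IsIntegral E S := Algebra.IsInvariant.isIntegral E S H
    haveI := x.isMaximal
    have h1 : (x.asIdeal.comap (algebraMap E S)).IsMaximal :=
      Ideal.isMaximal_comap_of_isIntegral_of_isMaximal (R := E) x.asIdeal
    exact Ring.ne_bot_of_isMaximal_of_not_isField h1 hE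

@[simp] theorem belowE_asIdeal (hE : ¬ IsField E) (x : MaximalSpectrum S) :
    (belowE (H := H) hE x).asIdeal = x.asIdeal.comap (algebraMap E S) := rfl

/-- every prime of `E` lies below a maximal ideal of `S` -/
theorem belowE_surjective (hE : ¬ IsField E) :
    Function.Surjective (belowE (H := H) (S := S) hE) := by
  intro Q
  haveI : Algebra.IsIntegral E S := Algebra.IsInvariant.isIntegral E S H
  haveI := Q.isMaximal
  obtain ⟨x, hx, hxQ⟩ := Ideal.exists_ideal_over_maximal_of_isIntegral (S := S) Q.asIdeal (by
    rw [(RingHom.injective_iff_ker_eq_bot _).mp (FaithfulSMul.algebraMap_injective E S)]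
    exact bot_le)
  exact ⟨⟨x, hx⟩, HeightOneSpectrum.ext hxQ⟩

/-- the fibres of `belowE` are the `H`-orbits -/
theorem belowE_eq_iff (hE : ¬ IsField E) (x x' : MaximalSpectrum S) :
    belowE (H := H) hE x = belowE (H := H) hE x' ↔ x' ∈ MulAction.orbit H x := by
  constructor
  · intro h
    have h1 : x.asIdeal.under E = x'.asIdeal.under E := congrArg HeightOneSpectrum.asIdeal h
    haveI := x.isMaximal
    haveI := x'.isMaximal
    obtain ⟨g, hg⟩ := Algebra.IsInvariant.exists_smul_of_under_eq E S H x.asIdeal x'.asIdeal h1
    exact ⟨g, MaximalSpectrum.ext hg.symm⟩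
  · rintro ⟨g, rfl⟩
    apply HeightOneSpectrum.ext
    change x.asIdeal.comap (algebraMap E S) = (g • x.asIdeal).comap (algebraMap E S)
    ext e
    rw [Ideal.mem_comap, Ideal.mem_comap, Ideal.mem_pointwise_smul_iff_inv_smul_mem,
      smul_algebraMap]

/-- **orbits = places**: `maxSpec S / H ≃ HeightOneSpectrum E` -/
noncomputable def orbitEquiv (hE : ¬ IsField E) :
    Quotient (orbitRel H (MaximalSpectrum S)) ≃ HeightOneSpectrum E :=
  Equiv.ofBijective
    (Quotient.lift (belowE (H := H) hE) fun x x' (h : x ∈ MulAction.orbit H x') =>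
      ((belowE_eq_iff hE x' x).mpr h).symm)
    ⟨by
      rintro ⟨x⟩ ⟨x'⟩ h
      apply Quotient.sound
      show x ∈ MulAction.orbit H x'
      exact (belowE_eq_iff hE x' x).mp h.symm,
     fun Q => by
      obtain ⟨x, hx⟩ := belowE_surjective (H := H) (S := S) hE Q
      exact ⟨Quotient.mk _ x, hx⟩⟩

theorem card_orbits_maxSpec_eq (hE : ¬ IsField E) :
    Nat.card (Quotient (orbitRel H (MaximalSpectrum S))) = Nat.card (HeightOneSpectrum E) :=
  Nat.card_congr (orbitEquiv hE)

/-- `#(primes of E) * #H = ∑ γ, #{x ∈ maxSpec S | γ x ⊆ x}` -/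
theorem card_heightOneSpectrum_mul [Fintype H] [Finite (MaximalSpectrum S)] (hE : ¬ IsField E) :
    Nat.card (HeightOneSpectrum E) * Nat.card H =
      ∑ γ : H, Nat.card {x : MaximalSpectrum S // ∀ s ∈ x.asIdeal, γ • s ∈ x.asIdeal} := by
  rw [← card_orbits_maxSpec_eq (H := H) (S := S) hE, card_orbits_maxSpec_mul]

end Below

/-! ### finiteness of the maximal spectrum -/

section Finite

/-- a finite algebra over a local ring has finitely many maximal ideals -/
theorem finite_maximalSpectrum (D0 S : Type*) [CommRing D0] [IsLocalRing D0] [CommRing S]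
    [Algebra D0 S] [Module.Finite D0 S] : Finite (MaximalSpectrum S) := by
  haveI := (FinEtLocal.finite_isMaximal D0 S).to_subtype
  exact Finite.of_injective
    (fun x : MaximalSpectrum S => (⟨x.asIdeal, x.isMaximal⟩ : {x : Ideal S | x.IsMaximal}))
    (fun x y h => MaximalSpectrum.ext (congrArg Subtype.val h))

end Finite

/-! ### (d) the combination -/

section Combine

variable {G H : Type*} [Group G] [Group H] [Fintype G] [Fintype H]

/-- two orbit counts with matching fixed-point numbers agree -/
theorem eq_of_orbit_counts (φ : G ≃* H) (zL zk : ℕ) (phik : G → ℕ) (stab : H → ℕ)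
    (hL : zL * Nat.card G = ∑ g : G, phik g) (hk : zk * Nat.card H = ∑ γ : H, stab γ)
    (h2 : ∀ g, phik g = stab (φ g)) : zL = zk := by
  have hcard : Nat.card G = Nat.card H := Nat.card_congr φ.toEquiv
  have hsum : ∑ g : G, phik g = ∑ γ : H, stab γ := by
    rw [← Equiv.sum_comp φ.toEquiv stab]
    exact Finset.sum_congr rfl fun g _ => h2 g
  have hpos : 0 < Nat.card H := Nat.card_pos
  rw [hsum, ← hk, hcard] at hL
  exact Nat.eq_of_mul_eq_mul_right hpos hL

variable {E S : Type*} [CommRing E] [IsDedekindDomain E] [CommRing S] [Algebra E S]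
  [FaithfulSMul E S] [MulSemiringAction H S] [SMulCommClass H E S] [Algebra.IsInvariant E S H]

/-- **the tame count**: if the number `zL` of places of the generic fibre over the base point
satisfies Burnside's identity `zL * #G = ∑ g, φk g`, and `φk g` is the number of maximal ideals of
the special fibre `S` stable under `φ g`, then `zL` is the number of primes of `E = S^H`. -/
theorem eq_card_heightOneSpectrum (φ : G ≃* H) (zL : ℕ) (phik : G → ℕ)
    (hL : zL * Nat.card G = ∑ g : G, phik g)
    (h2 : ∀ g, phik g =
      Nat.card {x : MaximalSpectrum S // ∀ s ∈ x.asIdeal, φ g • s ∈ x.asIdeal})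
    [Finite (MaximalSpectrum S)] (hE : ¬ IsField E) :
    zL = Nat.card (HeightOneSpectrum E) :=
  eq_of_orbit_counts φ zL _ phik _ hL (card_heightOneSpectrum_mul (H := H) (S := S) hE) h2

end Combine

end Fermat.Agent.S37.Tame.OrbitCount
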